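/-
S44lib / Q5 / BC / RatMap (helper3) — the coefficientwise map `K(X) → K'(X)` of a field embedding.
-/
import Mathlib

set_option autoImplicit false

noncomputable section

namespace Fermat.Agent.S44lib.Q5.BC

open Polynomial

variable {K K' : Type*} [Field K] [Field K'] (e : K →+* K')

theorem mapRingHom_mem_nonZeroDivisors :
    nonZeroDivisors K[X] ≤ (nonZeroDivisors K'[X]).comap (Polynomial.mapRingHom e) := by
  intro p hp
  rw [Submonoid.mem_comap, mem_nonZeroDivisors_iff_ne_zero]
  rw [mem_nonZeroDivisors_iff_ne_zero] at hp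
  intro h0
  rw [coe_mapRingHom] at h0
  exact hp (Polynomial.map_injective e e.injective (by rw [h0, Polynomial.map_zero]))

/-- `K(X) → K'(X)` coefficientwise -/
def ratMap : RatFunc K →+* RatFunc K' :=
  RatFunc.mapRingHom (Polynomial.mapRingHom e) (mapRingHom_mem_nonZeroDivisors e)

theorem ratMap_div (p q : K[X]) :
    ratMap e (algebraMap K[X] (RatFunc K) p / algebraMap K[X] (RatFunc K) q) =
      algebraMap K'[X] (RatFunc K') (p.map e) / algebraMap K'[X] (RatFunc K') (q.map e) := by
  rw [ratMap, RatFunc.coe_mapRingHom_eq_coe_map, RatFunc.map_apply_div]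
  rfl

theorem ratMap_algebraMap (p : K[X]) :
    ratMap e (algebraMap K[X] (RatFunc K) p) = algebraMap K'[X] (RatFunc K') (p.map e) := by
  have h := ratMap_div e p 1
  rwa [map_one, div_one, Polynomial.map_one, map_one, div_one] at h

theorem ratMap_X : ratMap e RatFunc.X = RatFunc.X := by
  rw [← RatFunc.algebraMap_X, ratMap_algebraMap, Polynomial.map_X, RatFunc.algebraMap_X]

theorem ratMap_C (c : K) : ratMap e (RatFunc.C c) = RatFunc.C (e c) := by
  rw [← RatFunc.algebraMap_C, ratMap_algebraMap, Polynomial.map_C, RatFunc.algebraMap_C]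

theorem ratMap_injective : Function.Injective (ratMap e) := (ratMap e).injective

end Fermat.Agent.S44lib.Q5.BC
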