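/-
S44lib / Q5 / BC / Rat  (helper9) — Project LSq, Q5 block C1: `K(X) → K'(X)` and the two charts.

For a field embedding `e : K →+* K'` and `ratMap e : K(X) → K'(X)` (helper3's `Q5/BC/RatMap`):
* `intDegree_ratMap`                         : `ratMap e` preserves the degree;
* `ratMap_mem_Apoly`, `mem_Apoly_of_ratMap`  : `r ∈ K[X] ↔ ratMap e r ∈ K'[X]`;
* `ratMap_mem_Ainf`, `mem_Ainf_of_ratMap`    : `r` regular at `∞` `↔ ratMap e r` regular at `∞`.
-/
import Fermat.Agent.S44lib.Q5.BC.RatMap
import Fermat.Agent.ProgramR.RR.Infty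

set_option autoImplicit false

noncomputable section

namespace Fermat.Agent.S44lib.Q5.BC

open Polynomial
open Fermat.Agent.ProgramR.RR

variable {K K' : Type*} [Field K] [Field K'] (e : K →+* K')

theorem ratMap_num_div_denom (r : RatFunc K) :
    ratMap e r = algebraMap K'[X] (RatFunc K') (r.num.map e) /
      algebraMap K'[X] (RatFunc K') (r.denom.map e) := by
  conv_lhs => rw [← RatFunc.num_div_denom r]
  exact ratMap_div e _ _

theorem ratMap_ne_zero {r : RatFunc K} (hr : r ≠ 0) : ratMap e r ≠ 0 :=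
  (map_ne_zero (ratMap e)).2 hr

/-- `ratMap e` preserves the degree -/
theorem intDegree_ratMap (r : RatFunc K) : (ratMap e r).intDegree = r.intDegree := by
  rcases eq_or_ne r 0 with rfl | hr
  · rw [map_zero, RatFunc.intDegree_zero, RatFunc.intDegree_zero]
  have hn : r.num ≠ 0 := RatFunc.num_ne_zero hr
  have hd : r.denom ≠ 0 := RatFunc.denom_ne_zero r
  have hn' : algebraMap K'[X] (RatFunc K') (r.num.map e) ≠ 0 :=
    algebraMap_ne_zero ((Polynomial.map_ne_zero_iff e.injective).2 hn)
  have hd' : algebraMap K'[X] (RatFunc K') (r.denom.map e) ≠ 0 :=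
    algebraMap_ne_zero ((Polynomial.map_ne_zero_iff e.injective).2 hd)
  rw [ratMap_num_div_denom, div_eq_mul_inv, RatFunc.intDegree_mul hn' (inv_ne_zero hd'),
    RatFunc.intDegree_inv, RatFunc.intDegree_polynomial, RatFunc.intDegree_polynomial,
    Polynomial.natDegree_map, Polynomial.natDegree_map, RatFunc.intDegree]
  ring

theorem ratMap_mem_Apoly {r : RatFunc K} (h : r ∈ Apoly K) : ratMap e r ∈ Apoly K' := by
  obtain ⟨p, rfl⟩ := h
  rw [ratMap_algebraMap]
  exact algebraMap_mem_Apoly _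

theorem mem_Apoly_of_ratMap {r : RatFunc K} (h : ratMap e r ∈ Apoly K') : r ∈ Apoly K := by
  obtain ⟨p', hp'⟩ := h
  have hd : r.denom ≠ 0 := RatFunc.denom_ne_zero r
  have hd' : algebraMap K'[X] (RatFunc K') (r.denom.map e) ≠ 0 :=
    algebraMap_ne_zero ((Polynomial.map_ne_zero_iff e.injective).2 hd)
  rw [ratMap_num_div_denom, eq_div_iff hd', ← map_mul] at hp'
  have h1 : r.num.map e = p' * r.denom.map e := (RatFunc.algebraMap_injective K' hp').symm
  have h2 : r.denom.map e ∣ r.num.map e := ⟨p', by rw [h1, mul_comm]⟩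
  obtain ⟨c, hc⟩ := (Polynomial.map_dvd_map e e.injective (RatFunc.monic_denom r)).1 h2
  refine ⟨c, ?_⟩
  conv_rhs => rw [← RatFunc.num_div_denom r, hc]
  rw [map_mul, mul_comm, mul_div_assoc, div_self (algebraMap_ne_zero hd), mul_one]

theorem ratMap_mem_Ainf {r : RatFunc K} (h : r ∈ Ainf K) : ratMap e r ∈ Ainf K' := by
  rcases h with rfl | h
  · rw [map_zero]
    exact (Ainf K').zero_mem
  · exact Or.inr (by rw [intDegree_ratMap]; exact h)

theorem mem_Ainf_of_ratMap {r : RatFunc K} (h : ratMap e r ∈ Ainf K') : r ∈ Ainf K := by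
  rcases h with h | h
  · exact Or.inl ((map_eq_zero (ratMap e)).1 h)
  · exact Or.inr (by rw [← intDegree_ratMap e]; exact h)

end Fermat.Agent.S44lib.Q5.BC
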