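/-
S44lib / Q5 / BC / Omega  (helper9) — Project LSq, Q5 blocks B and C1: regular differentials by traces.

In the variable block of `S18lib/RRgen` (`K` algebraically closed, `F / K(X)` finite separable, `B`, `Binf`
the two Dedekind charts):

* `mem_Omega_zero_iff_charts` : `h ∈ Omega K F B Binf 0 ↔ (∀ b : B, Tr (h b) ∈ K[X]) ∧ (∀ b : Binf, X² Tr (h b) ∈ A∞)`;
* `mem_Omega_zero_of_map` : **base change of regular differentials, descent direction**: for `e : K →+* K'`,
  `Φ : F →+* F'` compatible with the traces and mapping the charts into the charts,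
  `Φ h ∈ Omega K' F' B' Binf' 0 → h ∈ Omega K F B Binf 0`;
* `mem_Omega_zero_map` : the ascent direction, when the charts of `F'` are generated by the images
  (`hB`, `hBinf` in span form).
-/
import Fermat.Agent.S44lib.Q5.BC.Rat
import Fermat.Agent.S18lib.RRgen.Riemann

set_option autoImplicit false
set_option linter.unusedSectionVars false
set_option linter.style.haveILetI false
set_option linter.unusedVariables false

noncomputable section

namespace Fermat.Agent.S44lib.Q5.BC

open Module Polynomial IsDedekindDomain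
open scoped nonZeroDivisors
open Fermat.Agent.ProgramR Fermat.Agent.ProgramR.RR Fermat.Agent.ProgramR.Alg
open Fermat.Agent.S18lib Fermat.Agent.S18lib.RRgen

section Omega
variable (K : Type*) [Field K] [IsAlgClosed K]
  (F : Type*) [Field F] [Algebra (RatFunc K) F] [FiniteDimensional (RatFunc K) F]
  [Algebra.IsSeparable (RatFunc K) F] [Algebra K F] [IsScalarTower K (RatFunc K) F]
  (B : Type*) [CommRing B] [IsDedekindDomain B] [Algebra K[X] B] [Module.Finite K[X] B]
  [IsTorsionFree K[X] B] [Algebra B F] [IsFractionRing B F] [Algebra K[X] F]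
  [IsScalarTower K[X] (RatFunc K) F] [IsScalarTower K[X] B F]
  [Algebra K B] [IsScalarTower K B F]
  (Binf : Type*) [CommRing Binf] [IsDedekindDomain Binf] [Algebra (Ainf K) Binf]
  [Module.Finite (Ainf K) Binf] [IsTorsionFree (Ainf K) Binf] [Algebra Binf F]
  [IsFractionRing Binf F] [Algebra (Ainf K) F] [IsScalarTower (Ainf K) (RatFunc K) F]
  [IsScalarTower (Ainf K) Binf F]
  [Algebra K Binf] [IsScalarTower K Binf F]

theorem mem_Omega_zero_iff_charts (h : F) :
    h ∈ Omega K F B Binf 0 ↔
      (∀ b : B, Algebra.trace (RatFunc K) F (h * algebraMap B F b) ∈ Apoly K) ∧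
      (∀ b : Binf, (RatFunc.X : RatFunc K) ^ 2 *
        Algebra.trace (RatFunc K) F (h * algebraMap Binf F b) ∈ Ainf K) := by
  rw [Omega, mem_differentialSubspace]
  constructor
  · rintro ⟨h1, h2⟩
    refine ⟨fun b => h1 _ ?_, fun b => h2 _ ?_⟩
    · rw [uE_spec, IFin_zero]
      exact (FractionalIdeal.mem_one_iff _).mpr ⟨b, rfl⟩
    · rw [vE_spec, IInf_zero]
      exact (FractionalIdeal.mem_one_iff _).mpr ⟨b, rfl⟩
  · rintro ⟨h1, h2⟩
    refine ⟨fun x hx => ?_, fun x hx => ?_⟩
    · have hx' : x ∈ (1 : FractionalIdeal B⁰ F) := by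
        rw [uE_spec, IFin_zero] at hx
        exact hx
      obtain ⟨b, rfl⟩ := (FractionalIdeal.mem_one_iff _).mp hx'
      exact h1 b
    · have hx' : x ∈ (1 : FractionalIdeal Binf⁰ F) := by
        rw [vE_spec, IInf_zero] at hx
        exact hx
      obtain ⟨b, rfl⟩ := (FractionalIdeal.mem_one_iff _).mp hx'
      exact h2 b

variable (K' : Type*) [Field K'] [IsAlgClosed K']
  (F' : Type*) [Field F'] [Algebra (RatFunc K') F'] [FiniteDimensional (RatFunc K') F']
  [Algebra.IsSeparable (RatFunc K') F'] [Algebra K' F'] [IsScalarTower K' (RatFunc K') F']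
  (B' : Type*) [CommRing B'] [IsDedekindDomain B'] [Algebra K'[X] B'] [Module.Finite K'[X] B']
  [IsTorsionFree K'[X] B'] [Algebra B' F'] [IsFractionRing B' F'] [Algebra K'[X] F']
  [IsScalarTower K'[X] (RatFunc K') F'] [IsScalarTower K'[X] B' F']
  [Algebra K' B'] [IsScalarTower K' B' F']
  (Binf' : Type*) [CommRing Binf'] [IsDedekindDomain Binf'] [Algebra (Ainf K') Binf']
  [Module.Finite (Ainf K') Binf'] [IsTorsionFree (Ainf K') Binf'] [Algebra Binf' F']
  [IsFractionRing Binf' F'] [Algebra (Ainf K') F'] [IsScalarTower (Ainf K') (RatFunc K') F']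
  [IsScalarTower (Ainf K') Binf' F']
  [Algebra K' Binf'] [IsScalarTower K' Binf' F']

/-- **base change of regular differentials, descent direction** -/
theorem mem_Omega_zero_of_map (e : K →+* K') (Φ : F →+* F')
    (htr : ∀ y : F, Algebra.trace (RatFunc K') F' (Φ y) = ratMap e (Algebra.trace (RatFunc K) F y))
    (hB : ∀ b : B, ∃ b' : B', algebraMap B' F' b' = Φ (algebraMap B F b))
    (hBinf : ∀ b : Binf, ∃ b' : Binf', algebraMap Binf' F' b' = Φ (algebraMap Binf F b))
    (h : F) (hh : Φ h ∈ Omega K' F' B' Binf' 0) : h ∈ Omega K F B Binf 0 := by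
  rw [mem_Omega_zero_iff_charts] at hh ⊢
  obtain ⟨h1, h2⟩ := hh
  refine ⟨fun b => ?_, fun b => ?_⟩
  · obtain ⟨b', hb'⟩ := hB b
    have := h1 b'
    rw [hb', ← map_mul, htr] at this
    exact mem_Apoly_of_ratMap e this
  · obtain ⟨b', hb'⟩ := hBinf b
    have := h2 b'
    rw [hb', ← map_mul, htr, ← ratMap_X e, ← map_pow, ← map_mul] at this
    exact mem_Ainf_of_ratMap e this

end Omega

end Fermat.Agent.S44lib.Q5.BC
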