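/-
S44lib / Q5 / BC / Trace (helper5) — Project LSq, block Q5-C1: the trace commutes with a base change
of the constant field.

`Φ : F →+* F'` semilinear over `ratMap e : K(X) → K'(X)`, mapping independent families to independent
families, with `[F' : K'(X)] ≤ [F : K(X)]`: then `Tr_{F'/K'(X)} (Φ y) = ratMap e (Tr_{F/K(X)} y)`.
(A basis `b` of `F` maps to a basis `Φ ∘ b` of `F'`, and the matrix of multiplication by `Φ y` in
`Φ ∘ b` is the image of the matrix of multiplication by `y` in `b`.)
-/
import Mathlib
import Fermat.Agent.S44lib.Q5.BC.RatMap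

set_option autoImplicit false
set_option linter.unusedSectionVars false
set_option linter.style.haveILetI false

noncomputable section

namespace Fermat.Agent.S44lib.Q5.BC

open Module Polynomial

section Semilinear

/-! ### the general semilinear statement -/

variable {R R' : Type*} [Field R] [Field R'] (σ : R →+* R')
  {F F' : Type*} [Field F] [Field F'] [Algebra R F] [Algebra R' F']
  [FiniteDimensional R F] [FiniteDimensional R' F'] (Φ : F →+* F')

/-- coordinates in the image basis are the images of the coordinates -/
theorem repr_map_of_semilinear {n : ℕ} (b : Basis (Fin n) R F) (b' : Basis (Fin n) R' F')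
    (hb' : ∀ i, b' i = Φ (b i))
    (hΦ : ∀ r : R, Φ (algebraMap R F r) = algebraMap R' F' (σ r)) (w : F) (i : Fin n) :
    b'.repr (Φ w) i = σ (b.repr w i) := by
  have h1 : Φ w = ∑ j, (σ (b.repr w j)) • b' j := by
    conv_lhs => rw [← b.sum_repr w]
    rw [map_sum]
    refine Finset.sum_congr rfl fun j _ => ?_
    rw [Algebra.smul_def, map_mul, hΦ, hb', Algebra.smul_def]
  rw [h1, b'.repr_sum_self]

/-- **the trace commutes with a semilinear embedding preserving a basis** -/
theorem trace_map_of_semilinear
    (hΦ : ∀ r : R, Φ (algebraMap R F r) = algebraMap R' F' (σ r))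
    (hdeg : finrank R' F' ≤ finrank R F)
    (hLI : ∀ (n : ℕ) (b : Fin n → F), LinearIndependent R b →
      LinearIndependent R' (fun i => Φ (b i)))
    (y : F) :
    Algebra.trace R' F' (Φ y) = σ (Algebra.trace R F y) := by
  classical
  let b : Basis (Fin (finrank R F)) R F := Module.finBasis R F
  have hli : LinearIndependent R' (fun i => Φ (b i)) := hLI _ b b.linearIndependent
  have hcard : Fintype.card (Fin (finrank R F)) = finrank R' F' := by
    rw [Fintype.card_fin]
    refine le_antisymm ?_ hdeg
    have := hli.fintype_card_le_finrank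
    simpa using this
  haveI : Nonempty (Fin (finrank R F)) := ⟨⟨0, finrank_pos⟩⟩
  let b' : Basis (Fin (finrank R F)) R' F' := basisOfLinearIndependentOfCardEqFinrank hli hcard
  have hb' : ∀ i, b' i = Φ (b i) := fun i => by
    simp only [b', coe_basisOfLinearIndependentOfCardEqFinrank]
  rw [Algebra.trace_eq_matrix_trace b y, Algebra.trace_eq_matrix_trace b' (Φ y),
    Matrix.trace, Matrix.trace, map_sum]
  refine Finset.sum_congr rfl fun i _ => ?_
  rw [Matrix.diag_apply, Matrix.diag_apply, Algebra.leftMulMatrix_eq_repr_mul,
    Algebra.leftMulMatrix_eq_repr_mul, hb', ← map_mul]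
  exact repr_map_of_semilinear σ Φ b b' hb' hΦ (y * b i) i

end Semilinear

section Trace

variable {K K' : Type*} [Field K] [Field K'] (e : K →+* K')
  {F F' : Type*} [Field F] [Field F'] [Algebra (RatFunc K) F] [Algebra (RatFunc K') F']
  [FiniteDimensional (RatFunc K) F] [FiniteDimensional (RatFunc K') F'] (Φ : F →+* F')

theorem trace_map
    (hΦ : ∀ r : RatFunc K, Φ (algebraMap (RatFunc K) F r) = algebraMap (RatFunc K') F' (ratMap e r))
    (hdeg : finrank (RatFunc K') F' ≤ finrank (RatFunc K) F)
    (hLI : ∀ (n : ℕ) (b : Fin n → F), LinearIndependent (RatFunc K) b →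
      LinearIndependent (RatFunc K') (fun i => Φ (b i)))
    (y : F) :
    Algebra.trace (RatFunc K') F' (Φ y) = ratMap e (Algebra.trace (RatFunc K) F y) :=
  trace_map_of_semilinear (ratMap e) Φ hΦ hdeg hLI y

end Trace

end Fermat.Agent.S44lib.Q5.BC
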